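/-
S55 / leaf 36d-TAME-SYS (helper98): the tame (unramified) system `tameSys L q h : Sys (Lx L) QZ`
at a prime `q` unramified in the level `L`, and the base formula `_hQt` of
`CycloRecip37.TowerRecip.tower_reciprocity` for it:
`(tameSys L q h).S ⊤ (δχ_n ∪ b₀) = v_q(b₀) · χ_n(Frob_q) / p^n = tameVal hp2 q n b₀`  (`b₀ ∈ ℚˣ`).

`tameSys L q h` is helper54's unramified system `UnrGSys.unrGSys` on helper44's divisor module
`Zq L q = Coind_{locHom q L} ℤ` (evaluation data of the Frobenius `frobL q L`), pulled back along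
the valuation `valL L q h = diag q L ≫ valZ q (locHom q L) h : Lˣ ⟶ Zq L q` (`= IdeleVal44.divAt`).
-/
import Mathlib
import Fermat.Agent.S55.IdeleCoh54.UnrGSys
import Fermat.Agent.S55.IdeleVal44.Ideal
import Fermat.Agent.S55.FrobFin98.Basic
import Fermat.Agent.S55.CycloRecip37.TowerRecip

set_option autoImplicit false
set_option linter.unusedSectionVars false

namespace Fermat.Agent.S55.FrobSys98.Tame

open CategoryTheory

open Fermat.Agent.S55.Idele73.Basic Fermat.Agent.S55.GlobalInv91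
  Fermat.Agent.S55.CycloRecip37.GSys Fermat.Agent.S55.IdeleCoh54
  Fermat.Agent.S55.IdeleVal44 Fermat.Agent.S55.FrobFin98 Fermat.Agent.S55.QZ33
  Fermat.Agent.S55.CycloRecip37.TowerRecip

/-! ### the projection `ℚ → ℚ/ℤ` -/

/-- the projection `ℚ → ℚ/ℤ = QZ`. -/
noncomputable def qzProj : ℚ →+ QZ := QuotientAddGroup.mk' (AddSubgroup.zmultiples (1 : ℚ))

lemma qzProj_apply (x : ℚ) : qzProj x = ((x : ℚ) : QZ) := rfl

lemma qzProj_one : qzProj 1 = 0 := by
  rw [qzProj_apply]
  exact AddCircle.coe_period 1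

lemma fracHom_qzProj {n : ℕ} [NeZero n] (c : ZMod n) :
    UnrSum.fracHom qzProj qzProj_one n c = QZ.frac (c.val : ℤ) n := by
  rw [UnrSum.fracHom_apply, qzProj_apply, QZ.frac_def, Int.cast_natCast]

lemma zsmul_fracHom_qzProj {n : ℕ} [NeZero n] (v : ℤ) (c : ZMod n) :
    v • UnrSum.fracHom qzProj qzProj_one n c = QZ.frac ((c.val : ℤ) * v) n := by
  rw [fracHom_qzProj, QZ.zsmul_frac, mul_comm]

/-! ### the valuation map and its value on rational numbers -/

section val

variable (L : IntermediateField ℚ Qbar) [Normal ℚ L] (q : ℕ) [Fact q.Prime]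
  (h : IsUnrAt q (locHom q L))

/-- the divisor above `q` of `x ∈ Lˣ`: `Lˣ ⟶ ∏_{w ∣ q} ℤ`. -/
noncomputable def valL : Lx L ⟶ Zq L q := diag q L ≫ valZ q (locHom q L) h

lemma valL_hom_apply (x : Lx L) :
    (valL L q h).hom x = (valZ q (locHom q L) h).hom ((diag q L).hom x) := rfl

/-- `valL` at the primes outside `S` is helper44's `divAt`. -/
lemma valL_eq_divAt {S : Finset Nat.Primes} (hS : UnrOutside L S) (ℓ : OutS S) :
    haveI : Fact (ℓ.1.1).Prime := ⟨ℓ.1.2⟩
    valL L ℓ.1.1 (hS ℓ.1 ℓ.2) = divAt hS ℓ := rfl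

/-- `valL x = 0` iff `x` is a unit at all places above `q`. -/
theorem valL_eq_zero_iff (x : Lx L) :
    (valL L q h).hom x = 0 ↔ IsUnitAt L q ((Rep.toAdditive x).toMul : Lˣ) := by
  rw [valL_hom_apply, ← mem_range_inclφ_iff_valZ, isUnitAt_iff_mem_range]
  rfl

/-- the norm of a rational number in `PadicAlgCl q`. -/
lemma norm_ratCast_padicAlgCl (r : ℚ) (hr : r ≠ 0) :
    ‖((r : ℚ) : PadicAlgCl q)‖ = (q : ℝ) ^ (-padicValRat q r) := by
  have h1 : ((r : ℚ) : PadicAlgCl q) = algebraMap ℚ_[q] (PadicAlgCl q) (r : ℚ_[q]) :=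
    (map_ratCast (algebraMap ℚ_[q] (PadicAlgCl q)) r).symm
  rw [h1]
  have h2 := PadicAlgCl.norm_extends q (r : ℚ_[q])
  rw [h2, Padic.eq_padicNorm, padicNorm.eq_zpow_of_nonzero hr]
  push_cast
  rfl

/-- `v_q` of a rational number, computed with helper44's real-valued valuation. -/
lemma valAdd_ratCast (u : (PadicAlgCl q)ˣ) (r : ℚ) (hr : r ≠ 0)
    (hu : (u : PadicAlgCl q) = ((r : ℚ) : PadicAlgCl q)) :
    valAdd q (Additive.ofMul u) = (padicValRat q r : ℝ) := by
  rw [valAdd_apply, toMul_ofMul, hu, norm_ratCast_padicAlgCl q r hr, Real.log_zpow]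
  have hlog : Real.log (q : ℝ) ≠ 0 := (log_q_pos q).ne'
  push_cast
  field_simp

/-- the coordinates of the diagonal image of a rational number. -/
lemma diag_ratUnit_coord (b₀ : ℚˣ) (g : GalL L) :
    (((Rep.toAdditive (((diag q L).hom (ratUnit L b₀)).1 g)).toMul : (PadicAlgCl q)ˣ) :
      PadicAlgCl q) = (((b₀ : ℚ) : ℚ) : PadicAlgCl q) := by
  have h1 : ((diag q L).hom (ratUnit L b₀)).1 g =
      (diagLoc q L).hom ((Lx L).ρ g (ratUnit L b₀)) := rfl
  rw [h1, ratUnit_invariant]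
  show iotaL q L (algebraMap ℚ L (b₀ : ℚ)) = _
  rw [iotaL_apply]
  have h2 : ((algebraMap ℚ L (b₀ : ℚ) : L) : Qbar) = algebraMap ℚ Qbar (b₀ : ℚ) := rfl
  rw [h2, AlgHom.commutes, eq_ratCast]

/-- **the divisor of a rational number:** every coordinate of `valL (b₀)` is `v_q(b₀)`. -/
theorem valL_ratUnit (b₀ : ℚˣ) (g : GalL L) :
    ((valL L q h).hom (ratUnit L b₀)).1 g = padicValRat q (b₀ : ℚ) := by
  have h1 := valZ_hom_apply q (locHom q L) h ((diag q L).hom (ratUnit L b₀)) g
  have h2 := valAdd_ratCast q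
    ((Rep.toAdditive (((diag q L).hom (ratUnit L b₀)).1 g)).toMul : (PadicAlgCl q)ˣ)
    (b₀ : ℚ) (Units.ne_zero b₀) (diag_ratUnit_coord L q b₀ g)
  rw [valL_hom_apply]
  have h3 : ((((valZ q (locHom q L) h).hom ((diag q L).hom (ratUnit L b₀))).1 g : ℤ) : ℝ) =
      ((padicValRat q (b₀ : ℚ) : ℤ) : ℝ) := by
    rw [h1]
    exact h2
  exact_mod_cast h3

end val

/-! ### the tame system -/

section sys

variable (L : IntermediateField ℚ Qbar) [Normal ℚ L] [FiniteDimensional ℚ L]
  (q : ℕ) [Fact q.Prime] (h : IsUnrAt q (locHom q L))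

/-- the (classical) `Fintype` structure on `Gal(L/ℚ)` used by `tameSys` (NOT a global instance). -/
@[reducible] noncomputable def fintypeGalL : Fintype (GalL L) := Fintype.ofFinite _

attribute [local instance] fintypeGalL

/-- the evaluation data of `Zq L q` at the Frobenius `frobL q L`. -/
noncomputable def evalZq : UnrSum.EvalData (Zq L q) (frobL q L) :=
  UnrSum.coindEval (locHom q L) (frobL q L) (frobL_mem_range q L)

/-- **the tame system at `q`** (unramified in `L`): helper54's unramified system on the divisors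
above `q`, pulled back along the valuation. -/
noncomputable def tameSys : Sys (Lx L) QZ :=
  (UnrGSys.unrGSys (evalZq L q) qzProj qzProj_one).comap (valL L q h)

lemma tameSys_S (H : Subgroup (GalL L)) (f : GalL L × GalL L → Lx L) :
    (tameSys L q h).S H f =
      (UnrGSys.unrGSys (evalZq L q) qzProj qzProj_one).S H (fun x => (valL L q h).hom (f x)) :=
  rfl

variable {n : ℕ} [NeZero n]

lemma hom_carry {M : Rep ℤ (GalL L)} (φ : Lx L ⟶ M) (χ : GalL L →* Multiplicative (ZMod n))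
    (a : Lx L) : (fun x => φ.hom (carry (Lx L) χ a x)) = carry M χ (φ.hom a) := by
  funext x
  rw [carry, carry, map_nsmul]

open Classical in
/-- the unramified formula over `K = L^H`. -/
theorem tameSys_carry (χ : GalL L →* Multiplicative (ZMod n)) (H : Subgroup (GalL L)) (a : Lx L)
    (ha : ∀ g ∈ H, (Lx L).ρ g a = a) :
    (tameSys L q h).S H (carry (Lx L) χ a) =
      (∑ ξ : GalL L ⧸ H, ((valL L q h).hom a).1 (Quotient.out ξ)) •
        QZ.frac ((chiVal χ (frobL q L)).val : ℤ) n := by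
  rw [tameSys_S, hom_carry, UnrGSys.unrGSys_carry, fracHom_qzProj]
  · rfl
  · intro g hg
    rw [← Rep.hom_comm_apply, ha g hg]

/-- an element which is a unit above `q` contributes nothing at `q` (no invariance needed). -/
theorem tameSys_carry_eq_zero (χ : GalL L →* Multiplicative (ZMod n)) (H : Subgroup (GalL L))
    (a : Lx L) (ha : (valL L q h).hom a = 0) :
    (tameSys L q h).S H (carry (Lx L) χ a) = 0 := by
  rw [tameSys_S, hom_carry, ha]
  have h0 : carry (Zq L q) χ (0 : Zq L q) = 0 := by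
    funext x
    rw [carry, smul_zero]
    rfl
  rw [h0]
  exact Sys.zero _ H

/-- the unramified formula over the base `ℚ`. -/
theorem tameSys_top_carry_ratUnit (χ : GalL L →* Multiplicative (ZMod n)) (b₀ : ℚˣ) :
    (tameSys L q h).S ⊤ (carry (Lx L) χ (ratUnit L b₀)) =
      QZ.frac (((chiVal χ (frobL q L)).val : ℤ) * padicValRat q (b₀ : ℚ)) n := by
  rw [tameSys_S, hom_carry, UnrGSys.unrGSys_carry_top, ← zsmul_fracHom_qzProj]
  · congr 1
    exact valL_ratUnit L q h b₀ 1
  · intro g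
    rw [← Rep.hom_comm_apply, ratUnit_invariant]

end sys

/-! ### the tower character at the Frobenius, and `_hQt` -/

section tower

open Fermat.Agent.S55.CycloGlobal87 Fermat.Agent.S55.CycloRecip90

variable {p : ℕ} [hp : Fact p.Prime] (hp2 : p ≠ 2)
  (L : IntermediateField ℚ Qbar) [Normal ℚ L] [FiniteDimensional ℚ L]
  (q : ℕ) [hq : Fact q.Prime] (h : IsUnrAt q (locHom q L))

/-- the tower character at the Frobenius of `q ≠ p`. -/
theorem towerCharL_frobL (hqp : q ≠ p) (n : ℕ) (h' : towerField p n ≤ L) :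
    towerCharL p L hp2 n h' (frobL q L) =
      CycloGlobal87.dlog p hp2 n ⟨angle (p := p) n q ((Nat.coprime_primes hq.out hp.out).2 hqp),
        angle_mem_Gamma n q _⟩ :=
  towerCharL_of_isFrobeniusAt p L hp2 n h' hq.out hqp (padicPlace q)
    (Fermat.Agent.S55.UnrBridge42.liesOverPrime_padicPlace q) (frobQ_spec q)

/-- **`_hQt` of `tower_reciprocity` at an unramified prime `q ≠ p`.** -/
theorem tameSys_top_carry (hqp : q ≠ p) (n : ℕ) (h' : towerField p n ≤ L) (b₀ : ℚˣ) :
    haveI : NeZero (p ^ n) := ⟨pow_ne_zero _ hp.out.ne_zero⟩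
    (tameSys L q h).S ⊤ (carry (Lx L) (towerCharL p L hp2 n h') (ratUnit L b₀)) =
      tameVal hp2 ⟨q, hq.out⟩ n b₀ := by
  have : NeZero (p ^ n) := ⟨pow_ne_zero _ hp.out.ne_zero⟩
  rw [tameSys_top_carry_ratUnit]
  unfold tameVal
  rw [dif_neg (show ((⟨q, hq.out⟩ : Nat.Primes) : ℕ) ≠ p from hqp)]
  rw [chiVal, towerCharL_frobL hp2 L q hqp n h']

end tower

/-! ### the family `Qt` of `tower_reciprocity` -/

section primes

open Fermat.Agent.S55.CycloGlobal87

variable {p : ℕ} [hp : Fact p.Prime] (hp2 : p ≠ 2)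
  (L : IntermediateField ℚ Qbar) [Normal ℚ L] [FiniteDimensional ℚ L]
  (S : Finset Nat.Primes) (hS : UnrOutside L S)

open Classical in
/-- **the family `Qt` of `tower_reciprocity`:** the given systems `I q` at the primes of `S`, the
tame systems outside `S`. -/
noncomputable def tameSysP (I : Nat.Primes → Sys (Lx L) QZ) (q : Nat.Primes) : Sys (Lx L) QZ :=
  haveI : Fact (q : ℕ).Prime := ⟨q.2⟩
  if hq : q ∈ S then I q else tameSys L q (hS q hq)

lemma tameSysP_of_mem (I : Nat.Primes → Sys (Lx L) QZ) {q : Nat.Primes} (hq : q ∈ S) :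
    tameSysP L S hS I q = I q := by
  rw [tameSysP, dif_pos hq]

lemma tameSysP_of_notMem (I : Nat.Primes → Sys (Lx L) QZ) {q : Nat.Primes} (hq : q ∉ S) :
    haveI : Fact (q : ℕ).Prime := ⟨q.2⟩
    tameSysP L S hS I q = tameSys L q (hS q hq) := by
  rw [tameSysP, dif_neg hq]

/-- **`_hQt` of `tower_reciprocity` for the family `tameSysP`**, from the base formula at the
(ramified) primes of `S` only. -/
theorem hQt_tameSysP (I : Nat.Primes → Sys (Lx L) QZ) (T : Finset Nat.Primes)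
    (hT : ∀ q ∈ T, (q : ℕ) ≠ p) (n : ℕ) (h' : towerField p n ≤ L)
    (hI : ∀ q ∈ T, q ∈ S → ∀ b₀ : ℚˣ,
      haveI : NeZero (p ^ n) := ⟨pow_ne_zero _ hp.out.ne_zero⟩
      (I q).S ⊤ (carry (Lx L) (towerCharL p L hp2 n h') (ratUnit L b₀)) = tameVal hp2 q n b₀) :
    ∀ q ∈ T, ∀ b₀ : ℚˣ,
      haveI : NeZero (p ^ n) := ⟨pow_ne_zero _ hp.out.ne_zero⟩
      (tameSysP L S hS I q).S ⊤ (carry (Lx L) (towerCharL p L hp2 n h') (ratUnit L b₀)) =
        tameVal hp2 q n b₀ := by
  intro q hqT b₀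
  by_cases hq : q ∈ S
  · rw [tameSysP_of_mem L S hS I hq]
    exact hI q hqT hq b₀
  · have : Fact (q : ℕ).Prime := ⟨q.2⟩
    rw [tameSysP_of_notMem L S hS I hq]
    exact tameSys_top_carry hp2 L q (hS q hq) (hT q hqT) n h' b₀

end primes

end Fermat.Agent.S55.FrobSys98.Tame
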