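/-
S55 / leaf 36d-TAME-SUM (helper98): the ideal part of the total idelic system, pulled back to
`Lˣ` along the ideal map, is the locally finite sum of the tame systems `tameSys L ℓ` (`ℓ ∉ S`);
on a carry cochain `δχ ∪ a` it is the finite sum over any finite set `T` of primes containing
the support of `a` outside `S`.  This is the bridge between helper54's `idealSys` (the ideal part
of `invJ` on `J_S × I^S`) and the finite `T`-sum of `CycloRecip37.TowerRecip.tower_reciprocity`.
-/
import Mathlib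
import Fermat.Agent.S55.FrobSys98.Tame
import Fermat.Agent.S55.IdeleCoh54.IdealSys

set_option autoImplicit false
set_option linter.unusedSectionVars false

namespace Fermat.Agent.S55.FrobSys98.TameSum

open CategoryTheory

open Fermat.Agent.S55.Idele73.Basic Fermat.Agent.S55.GlobalInv91
  Fermat.Agent.S55.CycloRecip37.GSys Fermat.Agent.S55.IdeleCoh54
  Fermat.Agent.S55.IdeleCoh54.IdealSys
  Fermat.Agent.S55.IdeleVal44 Fermat.Agent.S55.FrobFin98 Fermat.Agent.S55.QZ33
  Fermat.Agent.S55.FrobSys98.Tame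

attribute [local instance] factPrimes44

variable {L : IntermediateField ℚ Qbar} [Normal ℚ L] [FiniteDimensional ℚ L]
  {S : Finset Nat.Primes} (hS : UnrOutside L S)

/-- the `ℓ`-component of the ideal map is the valuation map `valL`. -/
lemma compC_idealMap (ℓ : OutS S) (f : GalL L × GalL L → Lx L) :
    compC (fun ℓ : OutS S => Zq L ℓ.1.1) ℓ (fun x => (idealMap hS).hom (f x)) =
      fun x => (valL L ℓ.1.1 (hS ℓ.1 ℓ.2)).hom (f x) := by
  funext x
  rw [compC_apply, idealMap_hom_apply]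
  rfl

/-- **the ideal part, pulled back to `Lˣ`, is the locally finite sum of the tame systems.** -/
theorem idealSys_comap_idealMap_S (H : Subgroup (GalL L)) (f : GalL L × GalL L → Lx L) :
    ((idealSys L S qzProj qzProj_one).comap (idealMap hS)).S H f =
      ∑ᶠ ℓ : OutS S, (tameSys L ℓ.1.1 (hS ℓ.1 ℓ.2)).S H f := by
  rw [Sys.comap_S, idealSys_S]
  refine finsum_congr (fun ℓ => ?_)
  rw [compC_idealMap hS ℓ f, tameSys_S]
  rfl

variable {n : ℕ} [NeZero n]

/-- the tame term at `ℓ ∉ S` of a carry cochain vanishes when `a` is a unit above `ℓ`. -/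
lemma tameSys_carry_eq_zero_of_isUnitAt (χ : GalL L →* Multiplicative (ZMod n))
    (H : Subgroup (GalL L)) (a : Lx L) (ℓ : OutS S)
    (ha : IsUnitAt L ℓ.1.1 ((Rep.toAdditive a).toMul : Lˣ)) :
    (tameSys L ℓ.1.1 (hS ℓ.1 ℓ.2)).S H (carry (Lx L) χ a) = 0 :=
  tameSys_carry_eq_zero L ℓ.1.1 (hS ℓ.1 ℓ.2) χ H a
    ((valL_eq_zero_iff L ℓ.1.1 (hS ℓ.1 ℓ.2) a).2 ha)

open Classical in
/-- **the ideal part on a carry cochain is a finite sum** over the primes of `T` outside `S`, for
any finite `T` containing the support of `a` outside `S`. -/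
theorem idealSys_comap_carry_eq_sum (I : Nat.Primes → Sys (Lx L) QZ) (T : Finset Nat.Primes)
    (χ : GalL L →* Multiplicative (ZMod n)) (H : Subgroup (GalL L)) (a : Lx L)
    (hsupp : ∀ ℓ : Nat.Primes, ℓ ∉ S → ℓ ∉ T →
      IsUnitAt L ℓ.1 ((Rep.toAdditive a).toMul : Lˣ)) :
    ((idealSys L S qzProj qzProj_one).comap (idealMap hS)).S H (carry (Lx L) χ a) =
      ∑ q ∈ T.filter (· ∉ S), (tameSysP L S hS I q).S H (carry (Lx L) χ a) := by
  rw [idealSys_comap_idealMap_S]
  -- the finite set of indices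
  set s : Finset (OutS S) := (T.filter (· ∉ S)).subtype (· ∉ S) with hs
  have hsub : (Function.support fun ℓ : OutS S =>
      (tameSys L ℓ.1.1 (hS ℓ.1 ℓ.2)).S H (carry (Lx L) χ a)) ⊆ ↑s := by
    intro ℓ hℓ
    rw [Function.mem_support] at hℓ
    rw [Finset.mem_coe, hs, Finset.mem_subtype, Finset.mem_filter]
    refine ⟨?_, ℓ.2⟩
    by_contra hT
    exact hℓ (tameSys_carry_eq_zero_of_isUnitAt hS χ H a ℓ (hsupp ℓ.1 ℓ.2 hT))
  rw [finsum_eq_sum_of_support_subset _ hsub, hs]
  have h1 : ∀ ℓ : OutS S, (tameSys L ℓ.1.1 (hS ℓ.1 ℓ.2)).S H (carry (Lx L) χ a) =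
      (tameSysP L S hS I ℓ.1).S H (carry (Lx L) χ a) := fun ℓ => by
    rw [tameSysP_of_notMem L S hS I ℓ.2]
  rw [Finset.sum_congr rfl (fun ℓ _ => h1 ℓ)]
  exact Finset.sum_subtype_of_mem
    (fun q : Nat.Primes => (tameSysP L S hS I q).S H (carry (Lx L) χ a))
    (fun q hq => (Finset.mem_filter.mp hq).2)

open Classical in
/-- splitting the `T`-sum of the family `tameSysP` into its `S`-part and its part outside `S`. -/
theorem sum_tameSysP_eq (I : Nat.Primes → Sys (Lx L) QZ) (T : Finset Nat.Primes)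
    (H : Subgroup (GalL L)) (f : GalL L × GalL L → Lx L) :
    ∑ q ∈ T, (tameSysP L S hS I q).S H f =
      ∑ q ∈ T.filter (· ∈ S), (I q).S H f +
        ∑ q ∈ T.filter (· ∉ S), (tameSysP L S hS I q).S H f := by
  rw [← Finset.sum_filter_add_sum_filter_not T (· ∈ S)]
  congr 1
  refine Finset.sum_congr rfl (fun q hq => ?_)
  rw [tameSysP_of_mem L S hS I (Finset.mem_filter.mp hq).2]

open Classical in
/-- **the tame `T`-sum of `tower_reciprocity` (with `Qt := tameSysP L S hS I`) is the `S`-part of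
the `I q` plus the ideal part.** -/
theorem sum_tameSysP_carry_eq (I : Nat.Primes → Sys (Lx L) QZ) (T : Finset Nat.Primes)
    (χ : GalL L →* Multiplicative (ZMod n)) (H : Subgroup (GalL L)) (a : Lx L)
    (hsupp : ∀ ℓ : Nat.Primes, ℓ ∉ S → ℓ ∉ T →
      IsUnitAt L ℓ.1 ((Rep.toAdditive a).toMul : Lˣ)) :
    ∑ q ∈ T, (tameSysP L S hS I q).S H (carry (Lx L) χ a) =
      ∑ q ∈ T.filter (· ∈ S), (I q).S H (carry (Lx L) χ a) +
        ((idealSys L S qzProj qzProj_one).comap (idealMap hS)).S H (carry (Lx L) χ a) := by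
  rw [sum_tameSysP_eq hS I T H, idealSys_comap_carry_eq_sum hS I T χ H a hsupp]

/-! ### `_hsupp` of `tower_reciprocity` from unit conditions -/

section hsupp

open Fermat.Agent.S55.CycloRecip37.TowerRecip

variable (L) in
/-- the valuation of the first coordinate of the diagonal image, as an additive map. -/
noncomputable def coordVal (q : ℕ) [Fact q.Prime] : Lx L →+ ℝ where
  toFun x := valAdd q (Rep.toAdditive (((diag q L).hom x).1 1))
  map_zero' := by
    have h0 : (diag q L).hom (0 : Lx L) = 0 := map_zero _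
    rw [h0]
    exact map_zero (valAdd q)
  map_add' x y := by
    have h0 : (diag q L).hom (x + y) = (diag q L).hom x + (diag q L).hom y := map_add _ _ _
    rw [h0]
    exact map_add (valAdd q) (Rep.toAdditive (((diag q L).hom x).1 1))
      (Rep.toAdditive (((diag q L).hom y).1 1))

lemma coordVal_apply (q : ℕ) [Fact q.Prime] (x : Lx L) :
    coordVal L q x = valAdd q (Rep.toAdditive (((diag q L).hom x).1 1)) := rfl

lemma coordVal_ratUnit (q : ℕ) [Fact q.Prime] (b₀ : ℚˣ) :
    coordVal L q (ratUnit L b₀) = (padicValRat q (b₀ : ℚ) : ℝ) :=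
  valAdd_ratCast q _ (b₀ : ℚ) (Units.ne_zero b₀) (diag_ratUnit_coord L q b₀ 1)

lemma coordVal_rho_eq_zero (q : ℕ) [Fact q.Prime] (a : Lx L)
    (ha : IsUnitAt L q ((Rep.toAdditive a).toMul : Lˣ)) (g : GalL L) :
    coordVal L q ((Lx L).ρ g a) = 0 := by
  rw [coordVal_apply, valAdd_eq_zero_iff]
  have h1 := ha g
  exact h1

/-- **`_hsupp` of `tower_reciprocity`:** if `a` is a unit above every prime `ℓ ∉ T`, `ℓ ≠ p`, then
every product of conjugates of `a` which is rational has its support (away from `p`) in `T`. -/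
theorem hsupp_of_isUnitAt (T : Finset Nat.Primes) (p : ℕ) (a : Lx L)
    (h : ∀ ℓ : Nat.Primes, ℓ ∉ T → (ℓ : ℕ) ≠ p →
      IsUnitAt L ℓ.1 ((Rep.toAdditive a).toMul : Lˣ)) :
    ∀ (b₀ : ℚˣ) (c : Finset (GalL L)), ratUnit L b₀ = ∑ g ∈ c, (Lx L).ρ g a →
      ∀ q : Nat.Primes, (q : ℕ) ≠ p → padicValRat q (b₀ : ℚ) ≠ 0 → q ∈ T := by
  intro b₀ c hb q hqp hv
  by_contra hqT
  apply hv
  have h1 := congrArg (coordVal L (q : ℕ)) hb
  rw [coordVal_ratUnit, map_sum,
    Finset.sum_eq_zero (fun g _ => coordVal_rho_eq_zero (q : ℕ) a (h q hqT hqp) g)] at h1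
  exact_mod_cast h1

end hsupp

end Fermat.Agent.S55.FrobSys98.TameSum
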