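/-
S55 / leaf 36d-TAME-RECIP (helper98): `CycloRecip37.TowerRecip.tower_reciprocity` in the
"ideal part" normal form.  The finite auxiliary set `T`, the family `Qt` and the hypotheses
`_hQt`, `_hsupp` of `tower_reciprocity` are eliminated:

  `∑_{q ∈ S ∖ {p}} (I q)_K (δχ_m ∪ a) + (ideal part)_K (δχ_m ∪ a) + ε · (p-part)_K (δχ_m ∪ a) = 0`

for every `K = L^H`, every `a ∈ Kˣ`, where the ideal part is helper54's `idealSys` pulled back
along helper44's ideal map (`= ∑_{ℓ ∉ S}` of the tame systems), and `I q` are ANY systems at the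
primes of `S` different from `p` satisfying the base formula over `ℚ` (helper78 `TameRam`).
-/
import Mathlib
import Fermat.Agent.S55.FrobSys98.TameSum

set_option autoImplicit false
set_option linter.unusedSectionVars false

namespace Fermat.Agent.S55.FrobSys98.TameRecip

open Fermat.Agent.S55.Idele73.Basic Fermat.Agent.S55.GlobalInv91
  Fermat.Agent.S55.CycloRecip37 Fermat.Agent.S55.CycloRecip37.GSys
  Fermat.Agent.S55.CycloRecip37.IdeleSys Fermat.Agent.S55.CycloRecip37.TowerRecip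
  Fermat.Agent.S55.IdeleCoh54.IdealSys Fermat.Agent.S55.IdeleVal44 Fermat.Agent.S55.QZ33
  Fermat.Agent.S55.CycloGlobal87 Fermat.Agent.S55.FrobSys98.Tame Fermat.Agent.S55.FrobSys98.TameSum

variable {p : ℕ} [hp : Fact p.Prime]

open Classical in
/-- the auxiliary finite set of primes: the support of `a`, together with `S`, without `p`. -/
noncomputable def auxT (p : ℕ) [hp : Fact p.Prime] {L : IntermediateField ℚ Qbar} [Normal ℚ L]
    (S : Finset Nat.Primes) (a : Lx L) : Finset Nat.Primes :=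
  ((finite_setOf_not_isUnitAt L ((Rep.toAdditive a).toMul : Lˣ)).toFinset ∪ S).erase (pp p)

section aux

variable {L : IntermediateField ℚ Qbar} [Normal ℚ L] (S : Finset Nat.Primes) (a : Lx L)

lemma ne_of_mem_auxT {q : Nat.Primes} (hq : q ∈ auxT p S a) : (q : ℕ) ≠ p := by
  classical
  intro h
  rw [auxT, Finset.mem_erase] at hq
  exact hq.1 (Subtype.ext h)

lemma isUnitAt_of_notMem_auxT {ℓ : Nat.Primes} (hℓ : ℓ ∉ auxT p S a) (hℓp : (ℓ : ℕ) ≠ p) :
    IsUnitAt L ℓ.1 ((Rep.toAdditive a).toMul : Lˣ) := by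
  classical
  by_contra hu
  apply hℓ
  rw [auxT, Finset.mem_erase]
  refine ⟨fun h => hℓp (congrArg Subtype.val h), Finset.mem_union_left _ ?_⟩
  rw [Set.Finite.mem_toFinset]
  exact hu

lemma mem_auxT_of_mem {q : Nat.Primes} (hq : q ∈ S) (hqp : (q : ℕ) ≠ p) : q ∈ auxT p S a := by
  classical
  rw [auxT, Finset.mem_erase]
  exact ⟨fun h => hqp (congrArg Subtype.val h), Finset.mem_union_right _ hq⟩

open Classical in
lemma filter_mem_auxT : (auxT p S a).filter (· ∈ S) = S.erase (pp p) := by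
  ext q
  rw [Finset.mem_filter, Finset.mem_erase]
  constructor
  · rintro ⟨hq, hqS⟩
    exact ⟨fun h => ne_of_mem_auxT S a hq (congrArg Subtype.val h), hqS⟩
  · rintro ⟨hqp, hqS⟩
    exact ⟨mem_auxT_of_mem S a hqS (fun h => hqp (Subtype.ext h)), hqS⟩

end aux

/-- **`tower_reciprocity` in the ideal-part normal form.** -/
theorem tower_reciprocity_ideal (hp2 : p ≠ 2) (F : WildFamily p QZ) :
    ∃ eps : ∀ n, (ZMod (p ^ n))ˣ,
      (∀ n, ThetaUnit.red p n (eps (n + 1) : ZMod (p ^ (n + 1))) = eps n) ∧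
      ∀ (L : IntermediateField ℚ Qbar) [Normal ℚ L] [FiniteDimensional ℚ L]
        (S : Finset Nat.Primes) (hS : UnrOutside L S) (_hpS : pp p ∈ S)
        (I : Nat.Primes → Sys (Lx L) QZ)
        (_hI : ∀ q ∈ S, (q : ℕ) ≠ p → ∀ (n : ℕ) (h : towerField p n ≤ L) (b₀ : ℚˣ),
          (I q).S ⊤ (carry (Lx L) (towerCharL p L hp2 n h) (ratUnit L b₀)) = tameVal hp2 q n b₀)
        (m s : ℕ) (h' : towerField p (m + s) ≤ L) (N : ℕ) (_hN : m + s ≤ N)
        (H : Subgroup (GalL L)) (_hs : ∀ i, p ^ i ∣ H.normalCore.index → i ≤ s)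
        (a : Lx L) (_ha : ∀ g ∈ H, (Lx L).ρ g a = a),
        ∑ q ∈ S.erase (pp p), (I q).S H (carry (Lx L)
            (towerCharL p L hp2 m ((towerField_mono p (Nat.le_add_right m s)).trans h')) a) +
          ((idealSys L S qzProj qzProj_one).comap (idealMap hS)).S H (carry (Lx L)
            (towerCharL p L hp2 m ((towerField_mono p (Nat.le_add_right m s)).trans h')) a) +
          ((eps N : ZMod (p ^ N)).val) •
            (qSys L (pp p) (F.sys L) (AddMonoidHom.id QZ)).S H (carry (Lx L)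
              (towerCharL p L hp2 m ((towerField_mono p (Nat.le_add_right m s)).trans h')) a)
          = 0 := by
  classical
  obtain ⟨eps, heps, hrec⟩ := tower_reciprocity hp2 F
  refine ⟨eps, heps, ?_⟩
  intro L _ _ S hS hpS I hI m s h' N hN H hs a ha
  have hT : ∀ q ∈ auxT p S a, (q : ℕ) ≠ p := fun q hq => ne_of_mem_auxT S a hq
  have hQt := hQt_tameSysP hp2 L S hS I (auxT p S a) hT (m + s) h'
    (fun q hqT hqS b₀ => hI q hqS (hT q hqT) (m + s) h' b₀)
  have hsupp := hsupp_of_isUnitAt (auxT p S a) p a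
    (fun ℓ hℓT hℓp => isUnitAt_of_notMem_auxT S a hℓT hℓp)
  have hmain := hrec L m s h' N hN (auxT p S a) hT (tameSysP L S hS I) hQt H hs a ha hsupp
  have hsupp' : ∀ ℓ : Nat.Primes, ℓ ∉ S → ℓ ∉ auxT p S a →
      IsUnitAt L ℓ.1 ((Rep.toAdditive a).toMul : Lˣ) := by
    intro ℓ hℓS hℓT
    refine isUnitAt_of_notMem_auxT S a hℓT (fun hℓp => hℓS ?_)
    have : ℓ = pp p := Subtype.ext hℓp
    rw [this]
    exact hpS
  have : NeZero (p ^ m) := ⟨pow_ne_zero _ hp.out.ne_zero⟩
  rw [sum_tameSysP_carry_eq hS I (auxT p S a) _ H a hsupp', filter_mem_auxT] at hmain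
  exact hmain

end Fermat.Agent.S55.FrobSys98.TameRecip
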