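/-
S55 / leaf 36d-FROB-SYS (helper98): the LOCAL Frobenius-evaluation system on the trivial module `ℤ`
of a finite cyclic group `D = ⟨d⟩`, in helper37's global-cochain shape `GSys.Sys`.

For a subgroup `H ≤ D` the canonical generator is `gen d H = d ^ [D : H]` (the Frobenius of the
fixed field of `H` when `d` is the Frobenius of an unramified extension), and
`S H f = θ ((∑_{i < |H|} f (g_H ^ i, g_H)) / |H|)`, i.e. the invariant
`H²(H, ℤ) ≅ (1/|H|)ℤ/ℤ`, `δχ ↦ χ(g_H)`.
Mathlib + CycloRecip37.GSys + GlobalInv91.Carry only.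
-/
import Mathlib
import Fermat.Agent.S55.CycloRecip37.GSys
import Fermat.Agent.S55.GlobalInv91.Carry

set_option autoImplicit false
set_option linter.unusedSectionVars false
set_option linter.style.haveILetI false

namespace Fermat.Agent.S55.FrobSys98

open Fermat.Agent.S55.CycloRecip37.GSys Fermat.Agent.S55.GlobalInv91

variable {D : Type} [Group D]

/-- the trivial representation on `ℤ`. -/
abbrev Zt (D : Type) [Group D] : Rep.{0} ℤ D := Rep.trivial ℤ D ℤ

lemma Zt_ρ (g : D) (x : Zt D) : (Zt D).ρ g x = x := rfl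

/-- the canonical generator `d ^ [D : H]` of the subgroup `H` of the cyclic group `⟨d⟩`. -/
noncomputable def gen (d : D) (H : Subgroup D) : D := d ^ H.index

lemma gen_top (d : D) : gen d (⊤ : Subgroup D) = d := by
  simp [gen]

section cyclic

variable [Finite D] (d : D) (hd : ∀ x : D, x ∈ Subgroup.zpowers d)
include hd

lemma comm_of_cyclic (x y : D) : x * y = y * x := by
  obtain ⟨a, rfl⟩ := Subgroup.mem_zpowers_iff.1 (hd x)
  obtain ⟨b, rfl⟩ := Subgroup.mem_zpowers_iff.1 (hd y)
  rw [← zpow_add, ← zpow_add, add_comm]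

lemma normal_of_cyclic (H : Subgroup D) : H.Normal :=
  ⟨fun n hn g => by
    have : g * n * g⁻¹ = n := by
      rw [comm_of_cyclic d hd g n, mul_assoc, mul_inv_cancel, mul_one]
    rwa [this]⟩

lemma gen_mem (H : Subgroup D) : gen d H ∈ H := by
  haveI := normal_of_cyclic d hd H
  exact Subgroup.pow_index_mem H d

lemma orderOf_eq_card : orderOf d = Nat.card D := by
  rw [← Nat.card_zpowers]
  have : Subgroup.zpowers d = ⊤ := (Subgroup.eq_top_iff' _).2 hd
  rw [this, Subgroup.card_top]

lemma orderOf_gen (H : Subgroup D) : orderOf (gen d H) = Nat.card H := by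
  have h1 : Nat.card H * H.index = Nat.card D := Subgroup.card_mul_index H
  have hidx : 0 < H.index := Nat.pos_of_ne_zero Subgroup.index_ne_zero_of_finite
  unfold gen
  rw [orderOf_pow' d hidx.ne', orderOf_eq_card d hd, ← h1,
    Nat.gcd_eq_right (Dvd.intro_left _ rfl), Nat.mul_div_cancel _ hidx]

lemma zpowers_gen (H : Subgroup D) : Subgroup.zpowers (gen d H) = H := by
  have hle : Subgroup.zpowers (gen d H) ≤ H := Subgroup.zpowers_le.2 (gen_mem d hd H)
  refine Subgroup.eq_of_le_of_card_ge hle ?_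
  rw [Nat.card_zpowers, orderOf_gen d hd H]

lemma gen_pow_card (H : Subgroup D) : gen d H ^ Nat.card H = 1 := by
  rw [← orderOf_gen d hd H]
  exact pow_orderOf_eq_one _

omit [Finite D] hd in
lemma gen_of_le {H' H : Subgroup D} (h : H' ≤ H) : gen d H' = gen d H ^ H'.relIndex H := by
  unfold gen
  rw [← pow_mul, mul_comm, Subgroup.relIndex_mul_index h]

lemma relIndex_mul_card {H' H : Subgroup D} (h : H' ≤ H) :
    H'.relIndex H * Nat.card H' = Nat.card H := by
  have h1 := Subgroup.card_mul_index (H'.subgroupOf H)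
  rw [Nat.card_congr (Subgroup.subgroupOfEquivOfLe h).toEquiv] at h1
  rw [Subgroup.relIndex, mul_comm]
  exact h1

end cyclic

/-! ### The evaluation sum -/

/-- `∑_{i < |H|} f (g_H ^ i, g_H)`. -/
noncomputable def evSum (d : D) (H : Subgroup D) (f : D × D → Zt D) : ℤ :=
  ∑ i ∈ Finset.range (Nat.card H), (f (gen d H ^ i, gen d H) : ℤ)

lemma evSum_add (d : D) (H : Subgroup D) (f f' : D × D → Zt D) :
    evSum d H (f + f') = evSum d H f + evSum d H f' := by
  unfold evSum
  rw [← Finset.sum_add_distrib]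
  rfl

lemma evSum_congr (d : D) (H : Subgroup D) (hgen : gen d H ∈ H) {f f' : D × D → Zt D}
    (h : ∀ g ∈ H, ∀ a ∈ H, f (g, a) = f' (g, a)) : evSum d H f = evSum d H f' := by
  unfold evSum
  refine Finset.sum_congr rfl fun i _ => ?_
  rw [h _ (H.pow_mem hgen i) _ hgen]

/-- partial sums `F k = ∑_{j<k} f (g^j, g)`. -/
def partF (g : D) (f : D × D → Zt D) (k : ℕ) : ℤ :=
  ∑ j ∈ Finset.range k, (f (g ^ j, g) : ℤ)

lemma partF_zero (g : D) (f : D × D → Zt D) : partF g f 0 = 0 := by simp [partF]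

lemma partF_succ (g : D) (f : D × D → Zt D) (k : ℕ) :
    partF g f (k + 1) = partF g f k + (f (g ^ k, g) : ℤ) := by
  unfold partF
  rw [Finset.sum_range_succ]

/-- the cocycle identity with trivial coefficients. -/
lemma coc_triv {H : Subgroup D} {f : D × D → Zt D} (hf : IsCocOn (Zt D) H f) {g h l : D}
    (hg : g ∈ H) (hh : h ∈ H) (hl : l ∈ H) :
    (f (h, l) : ℤ) - f (g * h, l) + f (g, h * l) - f (g, h) = 0 :=
  hf g hg h hh l hl

lemma coc_apply_one {H : Subgroup D} {f : D × D → Zt D} (hf : IsCocOn (Zt D) H f) {s : D}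
    (hs : s ∈ H) : (f (s, 1) : ℤ) = f (1, 1) := by
  have h := coc_triv hf hs H.one_mem H.one_mem
  rw [mul_one, mul_one] at h
  linarith

/-- `f (g^i, g^m) = f (1,1) + F (i+m) - F i - F m` for a cocycle with trivial coefficients. -/
lemma coc_pow_pow {H : Subgroup D} {f : D × D → Zt D} (hf : IsCocOn (Zt D) H f) {g : D}
    (hg : g ∈ H) (i m : ℕ) :
    (f (g ^ i, g ^ m) : ℤ) = f (1, 1) + partF g f (i + m) - partF g f i - partF g f m := by
  induction m with
  | zero =>
    rw [pow_zero, add_zero, partF_zero, coc_apply_one hf (H.pow_mem hg i)]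
    ring
  | succ m ih =>
    have h := coc_triv hf (H.pow_mem hg i) (H.pow_mem hg m) hg
    rw [← pow_add, ← pow_succ] at h
    have e1 : i + (m + 1) = (i + m) + 1 := by ring
    rw [e1, partF_succ, partF_succ]
    linarith

lemma sum_partF_telescope (F : ℕ → ℤ) (r n' : ℕ) :
    ∑ i ∈ Finset.range n', (F (r * i + r) - F (r * i)) = F (r * n') - F 0 := by
  induction n' with
  | zero => simp
  | succ k ih =>
    rw [Finset.sum_range_succ, ih]
    have : r * (k + 1) = r * k + r := by ring
    rw [this]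
    ring

section cyclic2

variable [Finite D] (d : D) (hd : ∀ x : D, x ∈ Subgroup.zpowers d)
include hd

/-- on coboundaries the evaluation sum is divisible by `|H|`. -/
theorem evSum_cob {H : Subgroup D} {f : D × D → Zt D} (hf : IsCobOn (Zt D) H f) :
    (Nat.card H : ℤ) ∣ evSum d H f := by
  obtain ⟨c, hc⟩ := hf
  have hg := gen_mem d hd H
  set g := gen d H with hgdef
  have h1 : ∀ i : ℕ, (f (g ^ i, g) : ℤ) = (c g : ℤ) - c (g ^ (i + 1)) + c (g ^ i) := by
    intro i
    have := hc (g ^ i) (H.pow_mem hg i) g hg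
    rw [← pow_succ] at this
    exact this.symm
  have h2 : ∀ n : ℕ, ∑ i ∈ Finset.range n, (f (g ^ i, g) : ℤ) =
      n * (c g : ℤ) - c (g ^ n) + c 1 := by
    intro n
    induction n with
    | zero => simp
    | succ k ih =>
      rw [Finset.sum_range_succ, ih, h1 k]
      push_cast
      ring
  unfold evSum
  rw [← hgdef, h2, gen_pow_card d hd H]
  exact ⟨(c g : ℤ), by ring⟩

/-- **restriction**: for `H' ≤ H` and a cocycle on `H`, the evaluation sums agree modulo `|H'|`. -/
theorem evSum_res {H' H : Subgroup D} (h : H' ≤ H) {f : D × D → Zt D}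
    (hf : IsCocOn (Zt D) H f) : (Nat.card H' : ℤ) ∣ evSum d H' f - evSum d H f := by
  have hg := gen_mem d hd H
  set g := gen d H with hgdef
  set r := H'.relIndex H with hr
  set n' := Nat.card H' with hn'
  have hrn : r * n' = Nat.card H := relIndex_mul_card d hd h
  have hg' : gen d H' = g ^ r := gen_of_le d h
  have e1 : evSum d H' f = ∑ i ∈ Finset.range n', (f (g ^ (r * i), g ^ r) : ℤ) := by
    unfold evSum
    rw [hg']
    refine Finset.sum_congr rfl fun i _ => ?_
    rw [← pow_mul]
  have e2 : evSum d H f = partF g f (r * n') := by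
    unfold evSum partF
    rw [hrn]
  have e3 : ∀ i : ℕ, (f (g ^ (r * i), g ^ r) : ℤ) =
      ((f (1, 1) : ℤ) - partF g f r) + (partF g f (r * i + r) - partF g f (r * i)) := by
    intro i
    rw [coc_pow_pow hf hg (r * i) r]
    ring
  rw [e1, e2, Finset.sum_congr rfl (fun i _ => e3 i), Finset.sum_add_distrib,
    sum_partF_telescope (partF g f) r n', partF_zero, Finset.sum_const, Finset.card_range]
  exact ⟨(f (1, 1) : ℤ) - partF g f r, by simp only [nsmul_eq_mul]; ring⟩

end cyclic2

/-! ### The system -/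

section sys

variable [Finite D] (d : D) (hd : ∀ x : D, x ∈ Subgroup.zpowers d)
variable {T : Type*} [AddCommGroup T] (θ : ℚ →+ T) (hθ : θ 1 = 0)

include hθ in
lemma theta_int (z : ℤ) : θ (z : ℚ) = 0 := by
  have : (z : ℚ) = z • (1 : ℚ) := by simp
  rw [this, map_zsmul, hθ, smul_zero]

/-- the value of the system at `H`. -/
noncomputable def ev (H : Subgroup D) (f : D × D → Zt D) : T :=
  θ ((evSum d H f : ℚ) / (Nat.card H : ℚ))

/-- **The Frobenius-evaluation system** on the trivial module `ℤ` of the finite cyclic group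
`D = ⟨d⟩`. -/
noncomputable def frobSys : Sys (Zt D) T where
  S H f := ev d θ H f
  congr H f f' h := by
    unfold ev
    rw [evSum_congr d H (gen_mem d hd H) h]
  add H f f' _ _ := by
    unfold ev
    rw [evSum_add, Int.cast_add, add_div, map_add]
  cob H f hf := by
    obtain ⟨z, hz⟩ := evSum_cob d hd hf
    unfold ev
    have hH : (Nat.card H : ℚ) ≠ 0 := by
      exact_mod_cast (Nat.card_pos (α := H)).ne'
    rw [hz]
    push_cast
    rw [mul_div_assoc, mul_comm, div_mul_cancel₀ _ hH]
    exact theta_int θ hθ z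
  res H' H h f hf := by
    obtain ⟨z, hz⟩ := evSum_res d hd h hf
    have hH : (Nat.card H : ℚ) ≠ 0 := by
      exact_mod_cast (Nat.card_pos (α := H)).ne'
    have hH' : (Nat.card H' : ℚ) ≠ 0 := by
      exact_mod_cast (Nat.card_pos (α := H')).ne'
    have hrn : (H'.relIndex H : ℚ) * (Nat.card H' : ℚ) = (Nat.card H : ℚ) := by
      exact_mod_cast relIndex_mul_card d hd h
    have e1 : evSum d H' f = evSum d H f + (Nat.card H' : ℤ) * z := by linarith
    unfold ev
    rw [e1]
    push_cast
    rw [add_div, map_add, mul_comm ((Nat.card H' : ℚ)) (z : ℚ), mul_div_assoc,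
      div_self hH', mul_one, theta_int θ hθ z, add_zero, ← map_nsmul]
    congr 1
    have hr : (H'.relIndex H : ℚ) ≠ 0 := by
      intro h0
      rw [h0, zero_mul] at hrn
      exact hH hrn.symm
    rw [nsmul_eq_mul, ← hrn]
    field_simp
  conj H' H σ hH f _ := by
    have hHH : H' = H := by
      ext g
      rw [hH g]
      have : σ⁻¹ * g * σ = g := by
        rw [comm_of_cyclic d hd σ⁻¹ g, mul_assoc, inv_mul_cancel, mul_one]
      rw [this]
    have hf' : conjC (Zt D) σ f = f := by
      funext ⟨a, b⟩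
      rw [conjC_apply]
      have ea : σ⁻¹ * a * σ = a := by
        rw [comm_of_cyclic d hd σ⁻¹ a, mul_assoc, inv_mul_cancel, mul_one]
      have eb : σ⁻¹ * b * σ = b := by
        rw [comm_of_cyclic d hd σ⁻¹ b, mul_assoc, inv_mul_cancel, mul_one]
      rw [ea, eb]
      rfl
    rw [hf', hHH]

@[simp] lemma frobSys_S (H : Subgroup D) (f : D × D → Zt D) :
    (frobSys d hd θ hθ).S H f = θ ((evSum d H f : ℚ) / (Nat.card H : ℚ)) := rfl

end sys

/-! ### The value on carry classes -/

section carry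

variable [Finite D] (d : D) (hd : ∀ x : D, x ∈ Subgroup.zpowers d)
variable {T : Type*} [AddCommGroup T] (θ : ℚ →+ T) (hθ : θ 1 = 0)
variable {n : ℕ} [NeZero n]

omit [Finite D] in
/-- `∑_{i<N} carry(χ(g^i), χ(g)) · n = N · val χ(g)` when `g^N = 1`. -/
lemma sum_carryNat_pow (χ : D →* Multiplicative (ZMod n)) (g : D) (N : ℕ) (hgN : g ^ N = 1) :
    n * ∑ i ∈ Finset.range N, carryNat n (chiVal χ (g ^ i)) (chiVal χ g) =
      N * (chiVal χ g).val := by
  have h1 : ∀ K : ℕ, n * ∑ i ∈ Finset.range K, carryNat n (chiVal χ (g ^ i)) (chiVal χ g)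
      + (chiVal χ (g ^ K)).val = K * (chiVal χ g).val := by
    intro K
    induction K with
    | zero =>
      simp [chiVal_one]
    | succ k ih =>
      rw [Finset.sum_range_succ, mul_add]
      have h2 := val_add_val n (chiVal χ (g ^ k)) (chiVal χ g)
      rw [← chiVal_mul, ← pow_succ] at h2
      have : ((k + 1 : ℕ) : ℕ) * (chiVal χ g).val = k * (chiVal χ g).val + (chiVal χ g).val := by
        ring
      rw [this, ← ih]
      omega
  have := h1 N
  rw [hgN, chiVal_one, ZMod.val_zero, add_zero] at this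
  exact this

include hd in
lemma evSum_carry (χ : D →* Multiplicative (ZMod n)) (a : ℤ) (H : Subgroup D) :
    (n : ℤ) * evSum d H (carry (Zt D) χ (a : Zt D)) =
      (Nat.card H : ℤ) * (a * ((chiVal χ (gen d H)).val : ℤ)) := by
  have h1 := sum_carryNat_pow χ (gen d H) (Nat.card H) (gen_pow_card d hd H)
  have h2 : evSum d H (carry (Zt D) χ (a : Zt D)) =
      ((∑ i ∈ Finset.range (Nat.card H),
        carryNat n (chiVal χ (gen d H ^ i)) (chiVal χ (gen d H)) : ℕ) : ℤ) * a := by
    unfold evSum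
    push_cast
    rw [Finset.sum_mul]
    refine Finset.sum_congr rfl fun i _ => ?_
    rw [carry_apply]
    change (carryNat n _ _ • (a : ℤ) : ℤ) = _
    rw [nsmul_eq_mul]
  rw [h2, ← mul_assoc]
  have h3 : ((n : ℤ) * ((∑ i ∈ Finset.range (Nat.card H),
        carryNat n (chiVal χ (gen d H ^ i)) (chiVal χ (gen d H)) : ℕ) : ℤ)) =
      (Nat.card H : ℤ) * ((chiVal χ (gen d H)).val : ℤ) := by
    exact_mod_cast h1
  rw [h3]
  ring

/-- **(L1)** the value on carry classes: `S H (δχ ∪ a) = a · χ(g_H) / n`. -/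
theorem frobSys_carry (χ : D →* Multiplicative (ZMod n)) (a : ℤ) (H : Subgroup D) :
    (frobSys d hd θ hθ).S H (carry (Zt D) χ (a : Zt D)) =
      θ (((a : ℚ) * ((chiVal χ (gen d H)).val : ℚ)) / (n : ℚ)) := by
  rw [frobSys_S]
  congr 1
  have hH : (Nat.card H : ℚ) ≠ 0 := by
    exact_mod_cast (Nat.card_pos (α := H)).ne'
  have hn : (n : ℚ) ≠ 0 := by exact_mod_cast NeZero.ne n
  have h := evSum_carry d hd χ a H
  have hq : (n : ℚ) * (evSum d H (carry (Zt D) χ (a : Zt D)) : ℚ) =
      (Nat.card H : ℚ) * ((a : ℚ) * ((chiVal χ (gen d H)).val : ℚ)) := by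
    exact_mod_cast h
  field_simp
  linarith

/-- at the top: `S ⊤ (δχ ∪ a) = a · χ(d) / n`. -/
theorem frobSys_carry_top (χ : D →* Multiplicative (ZMod n)) (a : ℤ) :
    (frobSys d hd θ hθ).S ⊤ (carry (Zt D) χ (a : Zt D)) =
      θ (((a : ℚ) * ((chiVal χ d).val : ℚ)) / (n : ℚ)) := by
  rw [frobSys_carry, gen_top]

end carry

end Fermat.Agent.S55.FrobSys98
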