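/-
S55 / leaf 36d-IDEAL-INFL-LX (helper98): level change of the ideal part of the total idelic system
on `Lˣ`-valued cochains.  For levels `L' ≤ L` (finite Galois over `ℚ`, unramified outside `S`),
the divisor of an element of `L'ˣ` computed in `L` is the pull-back of its divisor computed in `L'`
(`idealMap_inclLx`), hence helper54's inflation invariance `IdealInfl.idealSys_infl` gives the
inflation invariance of `(idealSys · S θ hθ).comap (idealMap ·)` on inflated `Lˣ`-valued cocycles
(`idealPart_infl`).  This is the unramified half of the Sys-level inflation invariance of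
`(totalSysU …).comap (deltaS h)` needed for the depth-free form of `recT`.
-/
import Mathlib
import Fermat.Agent.S55.IdeleCoh54.IdealInfl
import Fermat.Agent.S55.CLDescent35.Level
import Fermat.Agent.S55.CycloRecip37.TotalSys

set_option autoImplicit false
set_option linter.unusedSectionVars false

namespace Fermat.Agent.S55.FrobSys98.IdealInflLx

open CategoryTheory

open Fermat.Agent.S55.Idele73.Basic Fermat.Agent.S55.CycloRecip37 Fermat.Agent.S55.CycloRecip37.GSys
  Fermat.Agent.S55.IdeleCoh54 Fermat.Agent.S55.IdeleCoh54.IdealSys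
  Fermat.Agent.S55.IdeleCoh54.IdealInfl Fermat.Agent.S55.IdeleCoh54.UnrInfl
  Fermat.Agent.S55.IdeleVal44 Fermat.Agent.S55.CLDescent35.Level

attribute [local instance] factPrimes44

variable {L L' : IntermediateField ℚ Qbar} [Normal ℚ L] [Normal ℚ L']
  [FiniteDimensional ℚ L] [FiniteDimensional ℚ L'] (h : L' ≤ L)
  {S : Finset Nat.Primes} (hL : UnrOutside L S) (hL' : UnrOutside L' S)

/-- the coordinates of the diagonal image of an element of `L'ˣ`, computed in `L`. -/
lemma diag_inclLx (q : ℕ) [Fact q.Prime] (a : Lx L') (g : GalL L) :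
    ((diag q L).hom ((inclLx h).hom a)).1 g = ((diag q L').hom a).1 (resLev h g) := by
  have h1 : ((diag q L).hom ((inclLx h).hom a)).1 g =
      (diagLoc q L).hom ((Lx L).ρ g ((inclLx h).hom a)) := rfl
  have h2 : ((diag q L').hom a).1 (resLev h g) =
      (diagLoc q L').hom ((Lx L').ρ (resLev h g) a) := rfl
  rw [h1, h2, inclLx_hom_apply, ← inclUnitsAdd_rho]
  rfl

/-- the divisor above `ℓ ∉ S` of an element of `L'ˣ`, computed in `L`. -/
lemma divAt_inclLx (ℓ : OutS S) (a : Lx L') (g : GalL L) :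
    ((divAt hL ℓ).hom ((inclLx h).hom a)).1 g = ((divAt hL' ℓ).hom a).1 (resLev h g) := by
  have h1 := valZ_hom_apply ℓ.1.1 (locHom ℓ.1.1 L) (hL ℓ.1 ℓ.2)
    ((diag ℓ.1.1 L).hom ((inclLx h).hom a)) g
  have h2 := valZ_hom_apply ℓ.1.1 (locHom ℓ.1.1 L') (hL' ℓ.1 ℓ.2)
    ((diag ℓ.1.1 L').hom a) (resLev h g)
  rw [diag_inclLx h ℓ.1.1 a g] at h1
  rw [divAt_hom_apply, divAt_hom_apply]
  have h3 : ((((valZ ℓ.1.1 (locHom ℓ.1.1 L) (hL ℓ.1 ℓ.2)).hom
      ((diag ℓ.1.1 L).hom ((inclLx h).hom a))).1 g : ℤ) : ℝ) =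
      ((((valZ ℓ.1.1 (locHom ℓ.1.1 L') (hL' ℓ.1 ℓ.2)).hom
        ((diag ℓ.1.1 L').hom a)).1 (resLev h g) : ℤ) : ℝ) := by
    rw [h1, h2]
  exact_mod_cast h3

/-- **the divisor of an element of `L'ˣ` computed in `L` is the pull-back of its divisor.** -/
theorem idealMap_inclLx (a : Lx L') :
    (idealMap hL).hom ((inclLx h).hom a) =
      inflIS L' L S (resLev h) (resLev_comp_resL h) ((idealMap hL').hom a) := by
  apply dsRep.ext
  intro ℓ
  rw [idealMap_hom_apply, inflIS_apply, idealMap_hom_apply]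
  apply Subtype.ext
  funext g
  rw [pullInt_apply]
  exact divAt_inclLx h hL hL' ℓ a g

variable {T : Type*} [AddCommGroup T] (θ : ℚ →+ T) (hθ : θ 1 = 0)

/-- **inflation invariance of the ideal part on `Lˣ`-valued cocycles.** -/
theorem idealPart_infl (H : Subgroup (GalL L')) (c : GalL L' × GalL L' → Lx L')
    (hc : IsCocOn (Lx L') H c) :
    ((idealSys L S θ hθ).comap (idealMap hL)).S (H.comap (resLev h))
        (fun p => (inclLx h).hom (c (resLev h p.1, resLev h p.2))) =
      ((idealSys L' S θ hθ).comap (idealMap hL')).S H c := by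
  have key := idealSys_infl L' L S (resLev h) (resLev_comp_resL h) θ hθ H
    (f := fun y => (idealMap hL').hom (c y)) (hom_isCocOn (idealMap hL') hc)
  rw [Sys.comap_S, Sys.comap_S, ← key]
  refine (idealSys L S θ hθ).congr _ _ _ (fun g _ a _ => ?_)
  exact idealMap_inclLx h hL hL' _

/-- the ideal part pulled back to `Lˣ` is the locally finite sum of helper37's `unrSys`
(generic `θ`; the second summand of `TotalSys.totalSys_comap_deltaS_S`). -/
theorem idealSys_comap_idealMap_eq_finsum (H : Subgroup (GalL L))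
    (f : GalL L × GalL L → Lx L) :
    ((idealSys L S θ hθ).comap (idealMap hL)).S H f =
      ∑ᶠ ℓ : OutS S, (TotalSys.unrSys θ hθ hL ℓ).S H f := by
  rw [Sys.comap_S, idealSys_S]
  refine finsum_congr fun ℓ => ?_
  rw [TotalSys.unrSys, Sys.comap_S]
  congr 1
  funext x
  exact idealMap_hom_apply hL (f x) ℓ

/-- **inflation invariance of the unramified half of `totalSys_comap_deltaS_S`.** -/
theorem finsum_unrSys_infl (H : Subgroup (GalL L')) (c : GalL L' × GalL L' → Lx L')
    (hc : IsCocOn (Lx L') H c) :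
    ∑ᶠ ℓ : OutS S, (TotalSys.unrSys θ hθ hL ℓ).S (H.comap (resLev h))
        (fun p => (inclLx h).hom (c (resLev h p.1, resLev h p.2))) =
      ∑ᶠ ℓ : OutS S, (TotalSys.unrSys θ hθ hL' ℓ).S H c := by
  rw [← idealSys_comap_idealMap_eq_finsum, ← idealSys_comap_idealMap_eq_finsum]
  exact idealPart_infl h hL hL' θ hθ H c hc

end Fermat.Agent.S55.FrobSys98.IdealInflLx
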