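/-
S55 / leaf 36d-FROB-SYS (helper98), part 2: the Frobenius-evaluation system on the `ℤ`-layer
`coind (jE ℓ L) ℤ` of a level `L` unramified at `ℓ` (helper73's finite model of `Zq L ℓ`), as the
coinduction (helper37's `CoindSys.coindSys`) of the local system `frobSys` at the Frobenius
`frobE ℓ L ∈ Gal(E/ℚ_ℓ)`.
-/
import Mathlib
import Fermat.Agent.S55.FrobSys98.Basic
import Fermat.Agent.S55.FrobFin98.Cyclic
import Fermat.Agent.S55.Idele73.Local
import Fermat.Agent.S55.CycloRecip37.CoindSys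

set_option autoImplicit false
set_option linter.unusedSectionVars false

namespace Fermat.Agent.S55.FrobSys98

open Fermat.Agent.S55.Idele73.Basic Fermat.Agent.S55.Idele73.Local Fermat.Agent.S55.Idele73.Mackey
open Fermat.Agent.S55.CycloRecip37.GSys Fermat.Agent.S55.CycloRecip37.CoindSys
open Fermat.Agent.S55.GlobalInv91 Fermat.Agent.S55.FrobFin98

variable (ℓ : ℕ) [Fact ℓ.Prime] (L : IntermediateField ℚ Qbar) [Normal ℚ L]

/-- the Frobenius of the local level `E = ℚ_ℓ(ι L)`. -/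
noncomputable def frobE : DE ℓ L := resE ℓ L (frobLoc ℓ)

theorem jE_frobE : jE ℓ L (frobE ℓ L) = frobL ℓ L := by
  rw [frobE, jE_resE, frobL_eq_locHom]

variable {ℓ L}

/-- **for a level unramified at `ℓ`, `Gal(E/ℚ_ℓ)` is generated by the Frobenius.** -/
theorem forall_mem_zpowers_frobE [FiniteDimensional ℚ L] (h : IsUnrAt ℓ L) :
    ∀ x : DE ℓ L, x ∈ Subgroup.zpowers (frobE ℓ L) := by
  intro x
  obtain ⟨τ, rfl⟩ := resE_surjective ℓ L x
  obtain ⟨i, hi⟩ := exists_pow_eq h τ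
  have h1 : jE ℓ L (resE ℓ L τ) = jE ℓ L (frobE ℓ L ^ i) := by
    rw [jE_resE, map_pow, jE_frobE, hi]
  rw [jE_injective ℓ L h1]
  exact Subgroup.npow_mem_zpowers _ i

variable (ℓ L)

instance finite_DE [FiniteDimensional ℚ L] : Finite (DE ℓ L) :=
  Finite.of_injective _ (jE_injective ℓ L)

theorem card_DE [FiniteDimensional ℚ L] :
    Nat.card (DE ℓ L) = Module.finrank ℚ_[ℓ] (Elev ℓ L) := by
  have hgal : IsGalois ℚ_[ℓ] (Elev ℓ L) := { to_normal := normal_Elev ℓ L }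
  exact IsGalois.card_aut_eq_finrank ℚ_[ℓ] (Elev ℓ L)

/-- the finite model of the `ℤ`-layer at `ℓ`: `coind (jE ℓ L) ℤ`. -/
noncomputable abbrev ZE : Rep.{0} ℤ (GalL L) := Rep.coind (jE ℓ L) (Zt (DE ℓ L))

variable {ℓ L}
variable {T : Type*} [AddCommGroup T] (θ : ℚ →+ T) (hθ : θ 1 = 0)

/-- **the unramified invariant on the `ℤ`-layer at `ℓ`**, for ALL subgroups of `Gal(L/ℚ)` at
once (restriction `S H' = [H:H'] • S H`, conjugation invariance: helper37's `coindSys`). -/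
noncomputable def zSys [FiniteDimensional ℚ L] (h : IsUnrAt ℓ L) : Sys (ZE ℓ L) T :=
  coindSys (j := jE ℓ L) (frobSys (frobE ℓ L) (forall_mem_zpowers_frobE h) θ hθ)

variable {n : ℕ} [NeZero n]

/-- localisation of a carry cochain at `x`: `loc x (δχ ∪ F) = δ(χ ∘ jE) ∪ F(x)` (characters are
conjugation invariant). -/
lemma loc_carry (χ : GalL L →* Multiplicative (ZMod n)) (F : ZE ℓ L) (x : GalL L) :
    loc (jE ℓ L) (Zt (DE ℓ L)) x (carry (ZE ℓ L) χ F) =
      carry (Zt (DE ℓ L)) (χ.comp (jE ℓ L)) (F.1 x) := by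
  funext ⟨a, b⟩
  rw [loc_apply, carry_apply, carry_apply]
  have e : ∀ c : DE ℓ L, chiVal χ (x⁻¹ * jE ℓ L c * x) = chiVal (χ.comp (jE ℓ L)) c := by
    intro c
    simp only [chiVal, MonoidHom.comp_apply, map_mul, map_inv]
    rw [mul_comm, ← mul_assoc, mul_inv_cancel, one_mul]
  rw [e a, e b]
  rfl

/-- a carry cochain of an `H`-invariant element is a cocycle on `H`. -/
lemma carry_isCocOn {Γ : Type} [Group Γ] (C : Rep.{0} ℤ Γ) (χ : Γ →* Multiplicative (ZMod n))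
    (a : C) (H : Subgroup Γ) (ha : ∀ g ∈ H, C.ρ g a = a) : IsCocOn C H (carry C χ a) := by
  intro g hg b _ c _
  simp only [carry_apply, chiVal_mul, map_nsmul, ha g hg]
  have h1 := carryNat_assoc n (chiVal χ g) (chiVal χ b) (chiVal χ c)
  have e := congrArg (fun m : ℕ => m • a) h1
  simp only [add_nsmul] at e
  have e2 : carryNat n (chiVal χ b) (chiVal χ c) • a -
      carryNat n (chiVal χ g + chiVal χ b) (chiVal χ c) • a +
        carryNat n (chiVal χ g) (chiVal χ b + chiVal χ c) • a -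
      carryNat n (chiVal χ g) (chiVal χ b) • a =
      (carryNat n (chiVal χ b) (chiVal χ c) • a +
        carryNat n (chiVal χ g) (chiVal χ b + chiVal χ c) • a) -
      (carryNat n (chiVal χ g) (chiVal χ b) • a +
        carryNat n (chiVal χ g + chiVal χ b) (chiVal χ c) • a) := by abel
  rw [e2, e, sub_self]

/-- **the value over the base on carry classes:** `S ⊤ (δχ ∪ F) = F(1) · χ(Frob_ℓ) / n`
(for `F` the image of `b ∈ Lˣ` under the ideal map, `F(1) = v_ℓ(b)`). -/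
theorem zSys_top_carry [FiniteDimensional ℚ L] (h : IsUnrAt ℓ L)
    (χ : GalL L →* Multiplicative (ZMod n)) (F : ZE ℓ L)
    (hF : ∀ g : GalL L, (ZE ℓ L).ρ g F = F) :
    (zSys θ hθ h).S ⊤ (carry (ZE ℓ L) χ F) =
      θ ((((F.1 1 : ℤ) : ℚ) * ((chiVal χ (frobL ℓ L)).val : ℚ)) / (n : ℚ)) := by
  have hcoc : IsCocOn (ZE ℓ L) ⊤ (carry (ZE ℓ L) χ F) :=
    carry_isCocOn (ZE ℓ L) χ F ⊤ (fun g _ => hF g)
  unfold zSys
  rw [coindSys_S, coindS_top _ hcoc, loc_carry, frobSys_carry_top]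
  simp only [chiVal, MonoidHom.comp_apply, jE_frobE]

/-- **the value at an arbitrary subgroup on carry classes:**
`S H (δχ ∪ F) = ∑_{x ∈ D\G/H} F(x) · χ(Frob_ℓ ^ f_x) / n`, `f_x = [D : D_x]` the residue degree
of the place `x` over the fixed field of `H`. -/
theorem zSys_carry [FiniteDimensional ℚ L] (h : IsUnrAt ℓ L)
    (χ : GalL L →* Multiplicative (ZMod n)) (F : ZE ℓ L) (H : Subgroup (GalL L))
    (hF : ∀ g ∈ H, (ZE ℓ L).ρ g F = F) {R : Finset (GalL L)} (hR : IsRepr (jE ℓ L) H R) :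
    (zSys θ hθ h).S H (carry (ZE ℓ L) χ F) =
      ∑ x ∈ R, θ ((((F.1 x : ℤ) : ℚ) *
        ((chiVal χ (frobL ℓ L ^ (twSub (jE ℓ L) H x).index)).val : ℚ)) / (n : ℚ)) := by
  have hcoc : IsCocOn (ZE ℓ L) H (carry (ZE ℓ L) χ F) := carry_isCocOn (ZE ℓ L) χ F H hF
  unfold zSys
  rw [coindSys_S, coindS_eq_sum _ hcoc hR]
  refine Finset.sum_congr rfl fun x _ => ?_
  unfold term
  rw [loc_carry, frobSys_carry]
  simp only [chiVal, MonoidHom.comp_apply, gen, map_pow, jE_frobE]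

end Fermat.Agent.S55.FrobSys98
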